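import Mathlib
import Fermat.Agent.FF4.ModularLead
import Fermat.Agent.FF3.InertiaLevels.NodeInstModular

/-!
# FF4 / GeoAssembly (N7 of the K1 typing board): the inertia action on the completed constants `K₁S`

For `σ` in the inertia group, a level `S` stable under `σ`, and an isometric `σΩ : Ω →+* Ω`
extending `σ` through `j`: `sigmaS σΩ … : K₁S j S →+* K₁S j S`, the restriction of `σΩ`
(`coe_sigmaS`), isometric (`norm_sigmaS`).  It is the landed `modConstHom` at any crossing,
transported by helper20's identifications `thetaK`, `thetaKinv`.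
-/

set_option autoImplicit false
set_option linter.unusedSectionVars false
set_option synthInstance.maxHeartbeats 400000
set_option maxHeartbeats 4000000

noncomputable section

local instance (priority := 100000) Fermat.Agent.FF4.FastInst.instAlgFullC_SigmaS
    {k : Type*} [Field k] (N : ℕ) :
    Algebra k ↥(ModularCurve.modularFunctionFieldFullC k N) := inferInstance
local instance (priority := 100000) Fermat.Agent.FF4.FastInst.instFieldFullC_SigmaS
    {k : Type*} [Field k] (N : ℕ) :
    Field ↥(ModularCurve.modularFunctionFieldFullC k N) := inferInstance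

namespace Fermat.Agent.FF4.GeoAssembly

open AlgebraicCurve ModularCurve IsLocalRing Fermat.Agent.Red Fermat.Agent.X0
  Fermat.Agent.BR Fermat.Agent.BR.Centre Fermat.Agent.BR.S0 Fermat.Agent.BR.SS
  Fermat.Agent.BR.Refine Fermat.Agent.BR.S0.RedModular
  Fermat.Agent.BR.S0.RedHyp Fermat.Agent.BR.S0.PointDict Fermat.Agent.BR.Inst.AnnulusInstFinal
  Fermat.Agent.BR.Inst.Levels Fermat.Agent.BR.Inst.NodeInst Fermat.Agent.BR.Inst.LocSub
  Fermat.Agent.BR.ValTwo
  Fermat.Agent.FF3 Fermat.Agent.FF3.Amice Fermat.Agent.FF3.B4 Fermat.Agent.FF3.DVCompl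
  Fermat.Agent.FF3.ExpandBR Fermat.Agent.FF3.BLift Fermat.Agent.FF4.BdryFrac
  Fermat.Agent.FF4.AmiceLead Fermat.Agent.FF4.ModularLead Fermat.Agent.FF3.InertiaLevels

attribute [local instance] normedAlgebraSubfield

local notation "Kb" => AlgebraicClosure ℚ
local notation "GQ" => (AlgebraicClosure ℚ ≃ₐ[ℚ] AlgebraicClosure ℚ)

variable {M q : ℕ} [NeZero M] [hq : Fact q.Prime]
variable (B : ValuationSubring Kb) (hB : B.LiesOverPrime q) (hqM : ¬ q ∣ M)
variable [IsAlgClosed (ResidueField B)]
variable (e : Crossing (chartDataModular B hB hqM))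
variable {Ω : Type} [NormedField Ω] [IsUltrametricDist Ω] [CompleteSpace Ω]
  (j : Kb →+* Ω) {S : Finset Kb}
variable {σ : GQ} (σΩ : Ω →+* Ω) (hnorm : ∀ x, ‖σΩ x‖ = ‖x‖)
  (hσj : ∀ c : Kb, σΩ (j c) = j (σ c)) (hσ : σ ∈ B.inertiaSubgroupIn ℚ)
  (hS : InertiaLevels.GalStable q σ S)

/-- **the action of an inertia element on the completed constants of a level stable under it**
(computed at the crossing `e`; it does not depend on it: `coe_sigmaS`) -/
def sigmaS : K₁S (M := M) (q := q) j S →+* K₁S (M := M) (q := q) j S :=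
  (thetaK B hB hqM ⟨e⟩ e j S).comp
    ((modConstHom B hB hqM ⟨e⟩ e j σΩ hnorm hσj hσ hS).comp (thetaKinv B hB hqM ⟨e⟩ e j S))

@[simp] theorem coe_sigmaS (c : K₁S (M := M) (q := q) j S) :
    ((sigmaS B hB hqM e j σΩ hnorm hσj hσ hS c : K₁S (M := M) (q := q) j S) : Ω) =
      σΩ (c : Ω) := by
  show ((thetaK B hB hqM ⟨e⟩ e j S (modConstHom B hB hqM ⟨e⟩ e j σΩ hnorm hσj hσ hS
    (thetaKinv B hB hqM ⟨e⟩ e j S c)) : K₁S (M := M) (q := q) j S) : Ω) = _
  rw [coe_thetaK, coe_modConstHom, coe_thetaKinv]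

theorem norm_sigmaS (c : K₁S (M := M) (q := q) j S) :
    ‖sigmaS B hB hqM e j σΩ hnorm hσj hσ hS c‖ = ‖c‖ := by
  show ‖((sigmaS B hB hqM e j σΩ hnorm hσj hσ hS c : K₁S (M := M) (q := q) j S) : Ω)‖ = _
  rw [coe_sigmaS]
  exact hnorm (c : Ω)

/-- compatibility with `thetaK` at any crossing (the shape of helper20's `phiSrc_equivariant`) -/
theorem coe_sigmaS_thetaK (hne : Nonempty (Crossing (chartDataModular B hB hqM)))
    (e' : Crossing (chartDataModular B hB hqM))
    (x : constK₁ (annulusLevels_modular_final B hB hqM hne e') S j) :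
    ((sigmaS B hB hqM e j σΩ hnorm hσj hσ hS (thetaK B hB hqM hne e' j S x) :
      K₁S (M := M) (q := q) j S) : Ω) =
      ((modConstHom B hB hqM hne e' j σΩ hnorm hσj hσ hS x :
        constK₁ (annulusLevels_modular_final B hB hqM hne e') S j) : Ω) := by
  rw [coe_sigmaS, coe_thetaK, coe_modConstHom]

end Fermat.Agent.FF4.GeoAssembly
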