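import Mathlib
import Fermat.Agent.FF4.ModularLead
import Fermat.Agent.FF4.AmiceLead.IsLeadInst

/-!
# FF4 / GeoAssembly (N7 of the K1 typing board), part 1: the constants of the tower over `K₁S`

On helper20's `FF4/ModularLead` (`K₁S j S`, `iotaSrc`, `iotaTgt`, `phiSrc`, `phiTgt`):

* `unifS e : K₁S j S` and `isDiscreteNorm_unifS` : the norm of `K₁S` is discrete;
* `piS e : K₁S j S` : the thickness of the crossing `e`, `coe_piS : (piS e : Ω) = j (L e).thick`;
* `constS c hc : K₁S j S` for a constant `c ∈ KS q S` of the level, `coe_constS`;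
* `iotaSrc_constS`, `iotaTgt_constS` : `ι_v (constS c) = emb v (the constant function c)`, hence
  `emb_const_mem_fieldRange_iotaSrc/Tgt` (the hypothesis `hι` of helper14's adapter);
* `natCast_ne_zero_K₁S` : `K₁S` has characteristic zero.
-/

set_option autoImplicit false
set_option linter.unusedSectionVars false
set_option synthInstance.maxHeartbeats 400000
set_option maxHeartbeats 4000000

noncomputable section

local instance (priority := 100000) Fermat.Agent.FF4.FastInst.instAlgFullC_TowerConst
    {k : Type*} [Field k] (N : ℕ) :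
    Algebra k ↥(ModularCurve.modularFunctionFieldFullC k N) := inferInstance
local instance (priority := 100000) Fermat.Agent.FF4.FastInst.instFieldFullC_TowerConst
    {k : Type*} [Field k] (N : ℕ) :
    Field ↥(ModularCurve.modularFunctionFieldFullC k N) := inferInstance

namespace Fermat.Agent.FF4.GeoAssembly

open AlgebraicCurve ModularCurve IsLocalRing Fermat.Agent.Red Fermat.Agent.X0
  Fermat.Agent.BR Fermat.Agent.BR.Centre Fermat.Agent.BR.S0 Fermat.Agent.BR.SS
  Fermat.Agent.BR.S0.RedModular
  Fermat.Agent.BR.S0.RedHyp Fermat.Agent.BR.S0.PointDict Fermat.Agent.BR.Inst.AnnulusInstFinal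
  Fermat.Agent.BR.Inst.Levels Fermat.Agent.BR.Inst.NodeInst Fermat.Agent.BR.Inst.LocSub
  Fermat.Agent.FF3 Fermat.Agent.FF3.Amice Fermat.Agent.FF3.B4 Fermat.Agent.FF3.DVCompl
  Fermat.Agent.FF3.ExpandBR Fermat.Agent.FF3.BLift Fermat.Agent.FF4.BdryFrac
  Fermat.Agent.FF4.AmiceLead Fermat.Agent.FF4.ModularLead Fermat.Agent.FF3.AmiceU

attribute [local instance] normedAlgebraSubfield
attribute [local instance] nontrivial_bAmice

local notation "Kb" => AlgebraicClosure ℚ

variable {M q : ℕ} [NeZero M] [hq : Fact q.Prime]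
variable (B : ValuationSubring Kb) (hB : B.LiesOverPrime q) (hqM : ¬ q ∣ M)
variable [IsAlgClosed (ResidueField B)]
variable (hne : Nonempty (Crossing (chartDataModular B hB hqM)))
variable (e e' : Crossing (chartDataModular B hB hqM))
variable {Ω : Type} [NormedField Ω] [IsUltrametricDist Ω] [CompleteSpace Ω]
  (j : Kb →+* Ω) (hj : ∀ c : Kb, ‖j c‖ ≤ 1 ↔ c ∈ B) (S : Finset Kb)

/-! ### discreteness, thickness -/

/-- the uniformiser of the level, in `K₁S` -/
def unifS : K₁S (M := M) (q := q) j S :=
  thetaK B hB hqM hne e j S (unifK₁ (annulusLevels_modular_final B hB hqM hne e) S j)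

include hj in
/-- **the norm of `K₁S` is discrete** -/
theorem isDiscreteNorm_unifS : IsDiscreteNorm (unifS B hB hqM hne e j S) := by
  obtain ⟨h0, h1, hd⟩ := isDiscreteNorm_unifK₁ (annulusLevels_modular_final B hB hqM hne e) S j hj
  have hn : ‖unifS B hB hqM hne e j S‖ =
      ‖unifK₁ (annulusLevels_modular_final B hB hqM hne e) S j‖ := norm_thetaK B hB hqM hne e j S _
  refine ⟨by rw [hn]; exact h0, by rw [hn]; exact h1, fun a ha => ?_⟩
  have ha' : thetaKinv B hB hqM hne e j S a ≠ 0 := by
    intro h0'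
    apply ha
    rw [← thetaK_thetaKinv B hB hqM hne e j S a, h0', map_zero]
  obtain ⟨m, hm⟩ := hd _ ha'
  exact ⟨m, by rw [hn, ← hm, norm_thetaKinv]⟩

/-- the thickness of the crossing `e`, in `K₁S` -/
def piS : K₁S (M := M) (q := q) j S :=
  thetaK B hB hqM hne e j S (thickK₁ (annulusLevels_modular_final B hB hqM hne e) S j)

@[simp] theorem coe_piS : ((piS B hB hqM hne e j S : K₁S (M := M) (q := q) j S) : Ω) =
    j (annulusLevels_modular_final B hB hqM hne e).thick := by
  unfold piS
  rw [coe_thetaK, coe_thickK₁]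

omit [IsUltrametricDist Ω] [CompleteSpace Ω] in
include j in
/-- `Ω` has characteristic zero -/
theorem natCast_ne_zero_Ω {n : ℕ} (hn : n ≠ 0) : (n : Ω) ≠ 0 := by
  have h1 : (n : Ω) = j (n : Kb) := (map_natCast j n).symm
  rw [h1]
  exact (map_ne_zero j).2 (Nat.cast_ne_zero.2 hn)

/-- `K₁S` has characteristic zero -/
theorem natCast_ne_zero_K₁S {n : ℕ} (hn : n ≠ 0) : (n : K₁S (M := M) (q := q) j S) ≠ 0 := by
  intro h0
  apply natCast_ne_zero_Ω j hn
  have := congrArg (fun x : K₁S (M := M) (q := q) j S => (x : Ω)) h0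
  simpa using this

/-! ### the constants of the level -/

/-- a constant of the function field of the level, in `K₁S` -/
def constS (c : Kb) (hc : c ∈ KFS (M := M) (q := q) S) : K₁S (M := M) (q := q) j S :=
  ⟨j c, Wc.le_Kc _ ⟨c, hc, rfl⟩⟩

@[simp] theorem coe_constS (c : Kb) (hc : c ∈ KFS (M := M) (q := q) S) :
    ((constS j S c hc : K₁S (M := M) (q := q) j S) : Ω) = j c := rfl

theorem constS_mul (c c' : Kb) (hc : c ∈ KFS (M := M) (q := q) S)
    (hc' : c' ∈ KFS (M := M) (q := q) S) :
    constS j S (c * c') ((KFS (M := M) (q := q) S).mul_mem hc hc') =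
      constS j S c hc * constS j S c' hc' :=
  Subtype.ext (map_mul j c c')

theorem constS_one : constS j S (1 : Kb) (KFS (M := M) (q := q) S).one_mem = 1 :=
  Subtype.ext (map_one j)

/-- the constant function `c` of the level -/
def constFS (c : Kb) (hc : c ∈ KFS (M := M) (q := q) S) : FS (M * q) q S :=
  ⟨algebraMap Kb (Fb (M * q)) c, hc⟩

theorem constFS_mul (c c' : Kb) (hc : c ∈ KFS (M := M) (q := q) S)
    (hc' : c' ∈ KFS (M := M) (q := q) S) :
    constFS S (c * c') ((KFS (M := M) (q := q) S).mul_mem hc hc') =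
      constFS S c hc * constFS S c' hc' :=
  Subtype.ext (map_mul _ c c')

theorem constFS_one : constFS S (1 : Kb) (KFS (M := M) (q := q) S).one_mem = 1 :=
  Subtype.ext (map_one _)

variable (D : Fin 2 → Datum (FS (M * q) q S))
  (hO : ∀ v (x : FS (M * q) q S),
    x ∈ (D v).O₀ ↔ (x : Fb (M * q)) ∈ (Final.setupFinal B hB hqM hne).O v)
  (hw : ∀ v, (D v).w = unifFS (M := M) B hB S)

/-- `ι₀` on an INTEGRAL constant of the level is the embedding of the constant function -/
theorem iotaSrc_constS_of_mem (c : Kb) (hc : c ∈ KFS (M := M) (q := q) S) (hcB : c ∈ B) :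
    iotaSrc B hB hqM hne e j hj S D hO hw (constS j S c hc) =
      (CD B hB hqM hne S D hO hw).emb 0 (constFS S c hc) := by
  have hK' : c ∈ ((annulusLevels_modular_final B hB hqM hne e).level S).K' := by
    rw [level_K'_eq_KFS]; exact hc
  set cl : levelConst (annulusLevels_modular_final B hB hqM hne e) S :=
    ⟨c, (mem_levelConst _ S).mpr ⟨hcB, hK'⟩⟩ with hcl
  have h1 : thetaKinv B hB hqM hne e j S (constS j S c hc) =
      constToK₁ (annulusLevels_modular_final B hB hqM hne e) S j cl := Subtype.ext rfl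
  have h2 := cK₁_constToK₁ (nodeInput_modular B hB hqM hne e j hj S D hO hw)
    (isDV_ofDatum D hO hw 0) (isCompl_ofDatum D hO hw 0) cl
  show cK₁ (nodeInput_modular B hB hqM hne e j hj S D hO hw) (isDV_ofDatum D hO hw 0)
    (isCompl_ofDatum D hO hw 0) (thetaKinv B hB hqM hne e j S (constS j S c hc)) = _
  exact (congrArg _ h1).trans (h2.trans rfl)

/-- `ι₁` on an INTEGRAL constant of the level is the embedding of the constant function -/
theorem iotaTgt_constS_of_mem (c : Kb) (hc : c ∈ KFS (M := M) (q := q) S) (hcB : c ∈ B) :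
    iotaTgt B hB hqM hne e j hj S D hO hw (constS j S c hc) =
      (CD B hB hqM hne S D hO hw).emb 1 (constFS S c hc) := by
  have hK' : c ∈ ((annulusLevels_modular_final B hB hqM hne e).level S).K' := by
    rw [level_K'_eq_KFS]; exact hc
  set cl : levelConst (annulusLevels_modular_final B hB hqM hne e) S :=
    ⟨c, (mem_levelConst _ S).mpr ⟨hcB, hK'⟩⟩ with hcl
  have h1 : thetaKinv B hB hqM hne e j S (constS j S c hc) =
      constToK₁ (annulusLevels_modular_final B hB hqM hne e) S j cl := Subtype.ext rfl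
  have h2 := cK₂_constToK₁ (nodeInput_modular B hB hqM hne e j hj S D hO hw)
    (isDV_ofDatum D hO hw 1) (isCompl_ofDatum D hO hw 1) cl
  show cK₂ (nodeInput_modular B hB hqM hne e j hj S D hO hw) (isDV_ofDatum D hO hw 1)
    (isCompl_ofDatum D hO hw 1) (thetaKinv B hB hqM hne e j S (constS j S c hc)) = _
  exact (congrArg _ h1).trans (h2.trans rfl)

/-- **`ι₀` on a constant of the level is the embedding of the constant function** -/
theorem iotaSrc_constS (c : Kb) (hc : c ∈ KFS (M := M) (q := q) S) :
    iotaSrc B hB hqM hne e j hj S D hO hw (constS j S c hc) =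
      (CD B hB hqM hne S D hO hw).emb 0 (constFS S c hc) := by
  rcases B.mem_or_inv_mem c with h | h
  · exact iotaSrc_constS_of_mem B hB hqM hne e j hj S D hO hw c hc h
  · rcases eq_or_ne c 0 with rfl | hc0
    · exact iotaSrc_constS_of_mem B hB hqM hne e j hj S D hO hw 0 hc B.zero_mem
    have hci : c⁻¹ ∈ KFS (M := M) (q := q) S := (KFS (M := M) (q := q) S).inv_mem hc
    have h1 := iotaSrc_constS_of_mem B hB hqM hne e j hj S D hO hw c⁻¹ hci h
    have h2 : constS j S c hc * constS j S c⁻¹ hci = 1 := by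
      apply Subtype.ext
      show j c * j c⁻¹ = 1
      rw [← map_mul, mul_inv_cancel₀ hc0, map_one]
    have h3 : constFS (M := M) (q := q) S c hc * constFS S c⁻¹ hci = 1 := by
      apply Subtype.ext
      show algebraMap Kb (Fb (M * q)) c * algebraMap Kb (Fb (M * q)) c⁻¹ = 1
      rw [← map_mul, mul_inv_cancel₀ hc0, map_one]
    have h4 := congrArg (iotaSrc B hB hqM hne e j hj S D hO hw) h2
    have h5 := congrArg ((CD B hB hqM hne S D hO hw).emb 0) h3
    rw [map_mul, map_one] at h4 h5
    rw [h1] at h4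
    have hne0 : (CD B hB hqM hne S D hO hw).emb 0 (constFS S c⁻¹ hci) ≠ 0 := by
      intro h0
      rw [h0, mul_zero] at h5
      exact zero_ne_one h5
    exact mul_right_cancel₀ hne0 (h4.trans h5.symm)

/-- **`ι₁` on a constant of the level is the embedding of the constant function** -/
theorem iotaTgt_constS (c : Kb) (hc : c ∈ KFS (M := M) (q := q) S) :
    iotaTgt B hB hqM hne e j hj S D hO hw (constS j S c hc) =
      (CD B hB hqM hne S D hO hw).emb 1 (constFS S c hc) := by
  rcases B.mem_or_inv_mem c with h | h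
  · exact iotaTgt_constS_of_mem B hB hqM hne e j hj S D hO hw c hc h
  · rcases eq_or_ne c 0 with rfl | hc0
    · exact iotaTgt_constS_of_mem B hB hqM hne e j hj S D hO hw 0 hc B.zero_mem
    have hci : c⁻¹ ∈ KFS (M := M) (q := q) S := (KFS (M := M) (q := q) S).inv_mem hc
    have h1 := iotaTgt_constS_of_mem B hB hqM hne e j hj S D hO hw c⁻¹ hci h
    have h2 : constS j S c hc * constS j S c⁻¹ hci = 1 := by
      apply Subtype.ext
      show j c * j c⁻¹ = 1
      rw [← map_mul, mul_inv_cancel₀ hc0, map_one]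
    have h3 : constFS (M := M) (q := q) S c hc * constFS S c⁻¹ hci = 1 := by
      apply Subtype.ext
      show algebraMap Kb (Fb (M * q)) c * algebraMap Kb (Fb (M * q)) c⁻¹ = 1
      rw [← map_mul, mul_inv_cancel₀ hc0, map_one]
    have h4 := congrArg (iotaTgt B hB hqM hne e j hj S D hO hw) h2
    have h5 := congrArg ((CD B hB hqM hne S D hO hw).emb 1) h3
    rw [map_mul, map_one] at h4 h5
    rw [h1] at h4
    have hne0 : (CD B hB hqM hne S D hO hw).emb 1 (constFS S c⁻¹ hci) ≠ 0 := by
      intro h0
      rw [h0, mul_zero] at h5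
      exact zero_ne_one h5
    exact mul_right_cancel₀ hne0 (h4.trans h5.symm)

/-- the constants of the level lie in the range of `ι₀` (`hι` of the T1 adapter) -/
theorem emb_const_mem_fieldRange_iotaSrc (c : Kb) (hc : c ∈ KFS (M := M) (q := q) S) :
    (CD B hB hqM hne S D hO hw).emb 0 (constFS S c hc) ∈
      (iotaSrc B hB hqM hne e j hj S D hO hw).fieldRange :=
  ⟨constS j S c hc, iotaSrc_constS B hB hqM hne e j hj S D hO hw c hc⟩

/-- the constants of the level lie in the range of `ι₁` -/
theorem emb_const_mem_fieldRange_iotaTgt (c : Kb) (hc : c ∈ KFS (M := M) (q := q) S) :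
    (CD B hB hqM hne S D hO hw).emb 1 (constFS S c hc) ∈
      (iotaTgt B hB hqM hne e j hj S D hO hw).fieldRange :=
  ⟨constS j S c hc, iotaTgt_constS B hB hqM hne e j hj S D hO hw c hc⟩

end Fermat.Agent.FF4.GeoAssembly
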