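import Mathlib
import Fermat.Agent.FF4.GeoAssembly.TowerConst
import Fermat.Agent.FF4.NodeIdentityModular
import Fermat.Agent.FF4.AmiceLead.K1Gamma

/-!
# FF4 / GeoAssembly (N7 of the K1 typing board), part 2: (GEO) AT ONE GALOIS-STABLE LEVEL

Level `S` of the modular tower, component data `(D, hO, hw)`, two crossings `e`, `e'`, over
helper20's common field of completed constants `K₁S j S`.

* `TowerAction` : THE CONTRACT for the inertia action at the level (to be instantiated from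
  helper29's `GaloisLayer`/`FracEquiv` and helper20's `sigmaS`): actions `act_v` of
  `Γ = ↥(B.inertiaSubgroupIn ℚ)` on the completed component fields with finite range, moving `emb`
  as `gal` moves functions; `σS t : K₁S →+* K₁S` the restriction of an isometric `σΩ t` extending
  `t` through `j`; equivariance of `iotaSrc/iotaTgt` and of the four expansions `phiSrc/phiTgt`.
* `node_identity_K₁S` : helper5's node identity, over `K₁S`.
* `k1_at_level` : **(GEO) at the level `S`**: for a nonzero function `f₀` of the level satisfying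
  (T1) on both components, with tube divisor divisible by `p` at `e` and at `e'`:
  `piS e ^ (-aY) = piS e' ^ (-aY') * υ * β ^ p`, `υ` fixed by `σS`, `‖υ‖ = 1`, `β` fixed by the
  stabiliser of `f₀` (`aY`, `aY'` the orders of the leading constants of `f₀` on the inner circles).
-/

set_option autoImplicit false
set_option linter.unusedSectionVars false
set_option synthInstance.maxHeartbeats 400000
set_option maxHeartbeats 4000000

noncomputable section

local instance (priority := 100000) Fermat.Agent.FF4.FastInst.instAlgFullC_K1Level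
    {k : Type*} [Field k] (N : ℕ) :
    Algebra k ↥(ModularCurve.modularFunctionFieldFullC k N) := inferInstance
local instance (priority := 100000) Fermat.Agent.FF4.FastInst.instFieldFullC_K1Level
    {k : Type*} [Field k] (N : ℕ) :
    Field ↥(ModularCurve.modularFunctionFieldFullC k N) := inferInstance

namespace Fermat.Agent.FF4.GeoAssembly

open AlgebraicCurve ModularCurve IsLocalRing Fermat.Agent.Red Fermat.Agent.X0
  Fermat.Agent.BR Fermat.Agent.BR.Centre Fermat.Agent.BR.S0 Fermat.Agent.BR.SS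
  Fermat.Agent.BR.Refine Fermat.Agent.BR.S0.RedModular
  Fermat.Agent.BR.S0.RedHyp Fermat.Agent.BR.S0.PointDict Fermat.Agent.BR.Inst.AnnulusInstFinal
  Fermat.Agent.BR.Inst.Levels Fermat.Agent.BR.Inst.NodeInst Fermat.Agent.BR.Inst.LocSub
  Fermat.Agent.BR.ValTwo
  Fermat.Agent.FF3 Fermat.Agent.FF3.Amice Fermat.Agent.FF3.B4 Fermat.Agent.FF3.DVCompl
  Fermat.Agent.FF3.ExpandBR Fermat.Agent.FF3.BLift Fermat.Agent.FF4.BdryFrac
  Fermat.Agent.FF4.AmiceLead Fermat.Agent.FF4.ModularLead Fermat.Agent.FF3.AmiceU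
  Fermat.Agent.FF4.NodeIdentity Fermat.Agent.FF4.TubeGalois

attribute [local instance] normedAlgebraSubfield
attribute [local instance] nontrivial_bAmice

local notation "Kb" => AlgebraicClosure ℚ
local notation "GQ" => (AlgebraicClosure ℚ ≃ₐ[ℚ] AlgebraicClosure ℚ)

variable {M q : ℕ} [NeZero M] [hq : Fact q.Prime]
variable (B : ValuationSubring Kb) (hB : B.LiesOverPrime q) (hqM : ¬ q ∣ M)
variable [IsAlgClosed (ResidueField B)]
variable (hne : Nonempty (Crossing (chartDataModular B hB hqM)))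
variable (e e' : Crossing (chartDataModular B hB hqM))
variable {Ω : Type} [NormedField Ω] [IsUltrametricDist Ω] [CompleteSpace Ω]
  (j : Kb →+* Ω) (hj : ∀ c : Kb, ‖j c‖ ≤ 1 ↔ c ∈ B) (S : Finset Kb)
variable (D : Fin 2 → Datum (FS (M * q) q S))
  (hO : ∀ v (x : FS (M * q) q S),
    x ∈ (D v).O₀ ↔ (x : Fb (M * q)) ∈ (Final.setupFinal B hB hqM hne).O v)
  (hw : ∀ v, (D v).w = unifFS (M := M) B hB S)

/-- **THE CONTRACT for the inertia action at a Galois-stable level `S`.** -/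
structure TowerAction where
  /-- the action on the completed function field of the component `0` -/
  act₀ : ↥(B.inertiaSubgroupIn ℚ) →* RingAut ((CD B hB hqM hne S D hO hw).Lh 0)
  /-- the action on the completed function field of the component `1` -/
  act₁ : ↥(B.inertiaSubgroupIn ℚ) →* RingAut ((CD B hB hqM hne S D hO hw).Lh 1)
  fin₀ : (Set.range act₀).Finite
  fin₁ : (Set.range act₁).Finite
  act₀_emb : ∀ (t : ↥(B.inertiaSubgroupIn ℚ)) (h h' : FS (M * q) q S),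
    (h' : Fb (M * q)) = gal (M * q) (t : GQ) • (h : Fb (M * q)) →
      act₀ t ((CD B hB hqM hne S D hO hw).emb 0 h) = (CD B hB hqM hne S D hO hw).emb 0 h'
  act₁_emb : ∀ (t : ↥(B.inertiaSubgroupIn ℚ)) (h h' : FS (M * q) q S),
    (h' : Fb (M * q)) = gal (M * q) (t : GQ) • (h : Fb (M * q)) →
      act₁ t ((CD B hB hqM hne S D hO hw).emb 1 h) = (CD B hB hqM hne S D hO hw).emb 1 h'
  /-- the action on `Ω` -/
  σΩ : ↥(B.inertiaSubgroupIn ℚ) → Ω →+* Ω
  σΩ_j : ∀ (t : ↥(B.inertiaSubgroupIn ℚ)) (c : Kb), σΩ t (j c) = j ((t : GQ) c)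
  /-- the action on the completed constants of the level -/
  σS : ↥(B.inertiaSubgroupIn ℚ) → K₁S (M := M) (q := q) j S →+* K₁S (M := M) (q := q) j S
  coe_σS : ∀ (t : ↥(B.inertiaSubgroupIn ℚ)) (c : K₁S (M := M) (q := q) j S),
    ((σS t c : K₁S (M := M) (q := q) j S) : Ω) = σΩ t (c : Ω)
  norm_σS : ∀ (t : ↥(B.inertiaSubgroupIn ℚ)) (c : K₁S (M := M) (q := q) j S), ‖σS t c‖ = ‖c‖
  iotaSrc_σS : ∀ (e : Crossing (chartDataModular B hB hqM)) (t : ↥(B.inertiaSubgroupIn ℚ))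
    (c : K₁S (M := M) (q := q) j S),
    iotaSrc B hB hqM hne e j hj S D hO hw (σS t c) =
      act₀ t (iotaSrc B hB hqM hne e j hj S D hO hw c)
  iotaTgt_σS : ∀ (e : Crossing (chartDataModular B hB hqM)) (t : ↥(B.inertiaSubgroupIn ℚ))
    (c : K₁S (M := M) (q := q) j S),
    iotaTgt B hB hqM hne e j hj S D hO hw (σS t c) =
      act₁ t (iotaTgt B hB hqM hne e j hj S D hO hw c)
  phiSrc_act : ∀ (e : Crossing (chartDataModular B hB hqM)) (t : ↥(B.inertiaSubgroupIn ℚ))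
    (x : (CD B hB hqM hne S D hO hw).Lh 0),
    phiSrc B hB hqM hne e j hj S D hO hw (act₀ t x) =
      mapCoeff (σS t) (norm_σS t) (phiSrc B hB hqM hne e j hj S D hO hw x)
  phiTgt_act : ∀ (e : Crossing (chartDataModular B hB hqM)) (t : ↥(B.inertiaSubgroupIn ℚ))
    (x : (CD B hB hqM hne S D hO hw).Lh 1),
    phiTgt B hB hqM hne e j hj S D hO hw (act₁ t x) =
      mapCoeff (σS t) (norm_σS t) (phiTgt B hB hqM hne e j hj S D hO hw x)

variable {B hB hqM hne j hj S D hO hw}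

/-- an element of `K₁S` whose image in `Ω` is `j c` with `c` fixed by `t` is fixed by `σS t` -/
theorem TowerAction.σS_eq_of_coe_eq (TA : TowerAction B hB hqM hne j hj S D hO hw)
    (t : ↥(B.inertiaSubgroupIn ℚ)) {A : K₁S (M := M) (q := q) j S} {c : Kb}
    (hA : (A : Ω) = j c) (hc : (t : GQ) c = c) : TA.σS t A = A := by
  apply Subtype.ext
  rw [TA.coe_σS, hA, TA.σΩ_j, hc]

variable (B hB hqM hne j hj S D hO hw)

/-! ### the node identity over `K₁S` -/

/-- **helper5's node identity at the crossing `e`, over the common field `K₁S`.** -/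
theorem node_identity_K₁S {h : FS (M * q) q S} (hh : h ≠ 0)
    (T : Finset (Place Kb (Fb (M * q))))
    (hT : ∀ Q, Q ∈ T ↔ Q ∈ tube (Final.setupFinal B hB hqM hne) e ∧ Q.ord (h : Fb (M * q)) ≠ 0)
    (hTS : ∀ Q ∈ T, evalAt Q (annulusLevels_modular_final B hB hqM hne e).u ∈ S)
    (p : ℕ) (μ : Place Kb (Fb (M * q)) → ℤ)
    (hμ : ∀ Q ∈ T, Q.ord (h : Fb (M * q)) = (p : ℤ) * μ Q) :
    ∃ A : K₁S (M := M) (q := q) j S, A ≠ 0 ∧
      ((A : K₁S (M := M) (q := q) j S) : Ω) = j (tubeProd B hB hqM hne e T μ) ∧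
      ∀ (cX cY : K₁S (M := M) (q := q) j S) (aX aY : ℤ),
        HasLead (phiSrc B hB hqM hne e j hj S D hO hw
          ((CD B hB hqM hne S D hO hw).emb 0 h)) cX aX →
        HasLead (phiTgt B hB hqM hne e j hj S D hO hw
          ((CD B hB hqM hne S D hO hw).emb 1 h)) cY aY →
        cY = cX * piS B hB hqM hne e j S ^ (-aY) * A ^ p ∧
          aX + aY = (p : ℤ) * ∑ Q ∈ T, μ Q := by
  obtain ⟨A₁, hA₁0, hA₁, hid⟩ :=
    node_identity_modular_hasLead B hB hqM hne e j hj S D hO hw hh T hT hTS p μ hμ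
  refine ⟨thetaK B hB hqM hne e j S A₁, ?_, ?_, fun cX cY aX aY hX hY => ?_⟩
  · intro h0
    apply hA₁0
    rw [← thetaKinv_thetaK B hB hqM hne e j S A₁, h0, map_zero]
  · rw [coe_thetaK, hA₁]
  · have hX' := (hasLead_phiSrc_iff B hB hqM hne e j hj S D hO hw _ cX aX).mp hX
    have hY' := (hasLead_phiTgt_iff B hB hqM hne e j hj S D hO hw _ cY aY).mp hY
    obtain ⟨h1, h2⟩ := hid _ _ aX aY hX' hY'
    refine ⟨?_, h2⟩
    have h3 := congrArg (thetaK B hB hqM hne e j S) h1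
    rw [thetaK_thetaKinv, map_mul, map_mul, thetaK_thetaKinv, map_zpow₀, map_pow] at h3
    exact h3

/-! ### (GEO) at one level -/

/-- **(GEO) at the Galois-stable level `S`.** -/
theorem k1_at_level (TA : TowerAction B hB hqM hne j hj S D hO hw)
    {f₀ : FS (M * q) q S} (hf₀ : f₀ ≠ 0)
    -- (T1) on the two components
    (h₀ : ∀ t : ↥(B.inertiaSubgroupIn ℚ),
      ∃ a ∈ (iotaSrc B hB hqM hne e j hj S D hO hw).fieldRange,
        ∃ m : (CD B hB hqM hne S D hO hw).Lh 0,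
          TA.act₀ t ((CD B hB hqM hne S D hO hw).emb 0 f₀) =
            a * m ^ q * (CD B hB hqM hne S D hO hw).emb 0 f₀)
    (h₁ : ∀ t : ↥(B.inertiaSubgroupIn ℚ),
      ∃ a ∈ (iotaTgt B hB hqM hne e j hj S D hO hw).fieldRange,
        ∃ m : (CD B hB hqM hne S D hO hw).Lh 1,
          TA.act₁ t ((CD B hB hqM hne S D hO hw).emb 1 f₀) =
            a * m ^ q * (CD B hB hqM hne S D hO hw).emb 1 f₀)
    -- the divisor of `f₀` on the two tubes is divisible by `q`, with support rational over `S`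
    (T T' : Finset (Place Kb (Fb (M * q))))
    (hT : ∀ Q, Q ∈ T ↔ Q ∈ tube (Final.setupFinal B hB hqM hne) e ∧ Q.ord (f₀ : Fb (M * q)) ≠ 0)
    (hT' : ∀ Q, Q ∈ T' ↔
      Q ∈ tube (Final.setupFinal B hB hqM hne) e' ∧ Q.ord (f₀ : Fb (M * q)) ≠ 0)
    (hTS : ∀ Q ∈ T, evalAt Q (annulusLevels_modular_final B hB hqM hne e).u ∈ S)
    (hTS' : ∀ Q ∈ T', evalAt Q (annulusLevels_modular_final B hB hqM hne e').u ∈ S)
    (μ : Place Kb (Fb (M * q)) → ℤ)
    (hμ : ∀ Q, Q.ord (f₀ : Fb (M * q)) = (q : ℤ) * μ Q)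
    {cY cY' : K₁S (M := M) (q := q) j S} {aY aY' : ℤ}
    (hY : HasLead (phiTgt B hB hqM hne e j hj S D hO hw
      ((CD B hB hqM hne S D hO hw).emb 1 f₀)) cY aY)
    (hY' : HasLead (phiTgt B hB hqM hne e' j hj S D hO hw
      ((CD B hB hqM hne S D hO hw).emb 1 f₀)) cY' aY') :
    ∃ υ β : K₁S (M := M) (q := q) j S, (∀ t : ↥(B.inertiaSubgroupIn ℚ), TA.σS t υ = υ) ∧
      ‖υ‖ = 1 ∧
      piS B hB hqM hne e j S ^ (-aY) = piS B hB hqM hne e' j S ^ (-aY') * υ * β ^ q ∧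
      (∀ t : ↥(B.inertiaSubgroupIn ℚ),
        gal (M * q) (t : GQ) • (f₀ : Fb (M * q)) = (f₀ : Fb (M * q)) → TA.σS t β = β) := by
  have hq0 : q ≠ 0 := hq.out.ne_zero
  have hϖ := isDiscreteNorm_unifS B hB hqM hne e j hj S
  -- the embeddings of `f₀`
  have hemb₀ : (CD B hB hqM hne S D hO hw).emb 0 f₀ ≠ 0 := by
    rw [Ne, map_eq_zero_iff _ ((CD B hB hqM hne S D hO hw).emb 0).injective]; exact hf₀
  have hemb₁ : (CD B hB hqM hne S D hO hw).emb 1 f₀ ≠ 0 := by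
    rw [Ne, map_eq_zero_iff _ ((CD B hB hqM hne S D hO hw).emb 1).injective]; exact hf₀
  -- the node identities
  obtain ⟨A, hA0, hAΩ, hid⟩ := node_identity_K₁S B hB hqM hne e j hj S D hO hw hf₀ T hT hTS q μ
    (fun Q _ => hμ Q)
  obtain ⟨A', hA'0, hA'Ω, hid'⟩ := node_identity_K₁S B hB hqM hne e' j hj S D hO hw hf₀ T' hT'
    hTS' q μ (fun Q _ => hμ Q)
  -- leading constants on the outer circles
  obtain ⟨cX, aX, hX⟩ := exists_hasLead hϖ
    (expansion_ne_zero (phiSrc B hB hqM hne e j hj S D hO hw) hemb₀)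
  obtain ⟨cX', aX', hX'⟩ := exists_hasLead hϖ
    (expansion_ne_zero (phiSrc B hB hqM hne e' j hj S D hO hw) hemb₀)
  obtain ⟨hn, -⟩ := hid cX cY aX aY hX hY
  obtain ⟨hn', -⟩ := hid' cX' cY' aX' aY' hX' hY'
  -- the abstract theorem
  obtain ⟨υ, β, h1, h2, h3, h4⟩ := k1_gamma hϖ hq0 (natCast_ne_zero_K₁S j S hq0)
    TA.act₀ TA.fin₀ TA.act₁ TA.fin₁ TA.σS TA.norm_σS
    (iotaSrc B hB hqM hne e j hj S D hO hw) (iotaTgt B hB hqM hne e j hj S D hO hw)
    (TA.iotaSrc_σS e) (TA.iotaTgt_σS e)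
    (phiSrc B hB hqM hne e j hj S D hO hw) (phiSrc B hB hqM hne e' j hj S D hO hw)
    (phiTgt B hB hqM hne e j hj S D hO hw) (phiTgt B hB hqM hne e' j hj S D hO hw)
    (phiSrc_iotaSrc B hB hqM hne e e j hj S D hO hw)
    (phiSrc_iotaSrc B hB hqM hne e' e j hj S D hO hw)
    (phiTgt_iotaTgt B hB hqM hne e e j hj S D hO hw)
    (phiTgt_iotaTgt B hB hqM hne e' e j hj S D hO hw)
    (TA.phiSrc_act e) (TA.phiSrc_act e') (TA.phiTgt_act e) (TA.phiTgt_act e')
    (norm_phiSrc_eq B hB hqM hne e e' j hj S D hO hw)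
    (norm_phiTgt_eq B hB hqM hne e e' j hj S D hO hw)
    hemb₀ hemb₁ h₀ h₁ hA0
    (π := piS B hB hqM hne e j S) (π' := piS B hB hqM hne e' j S) (A' := A')
    (a := -aY) (a' := -aY')
    (by rw [hY.leadC_eq hϖ, hX.leadC_eq hϖ]; exact hn)
    (by rw [hY'.leadC_eq hϖ, hX'.leadC_eq hϖ]; exact hn')
  refine ⟨υ, β, h1, h2, h3, fun t ht => ?_⟩
  have hf' : (f₀ : Fb (M * q)) = gal (M * q) (t : GQ) • (f₀ : Fb (M * q)) := ht.symm
  have hq0' : ((q : ℕ) : ℤ) ≠ 0 := Nat.cast_ne_zero.mpr hq0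
  refine h4 t (TA.act₀_emb t f₀ f₀ hf') (TA.act₁_emb t f₀ f₀ hf') ?_ ?_
  · exact TA.σS_eq_of_coe_eq t hAΩ
      (sigma_tubeProd_of_fixed B hB hqM hne e t.2 ht T hT hq0' μ (fun Q _ => hμ Q))
  · exact TA.σS_eq_of_coe_eq t hA'Ω
      (sigma_tubeProd_of_fixed B hB hqM hne e' t.2 ht T' hT' hq0' μ (fun Q _ => hμ Q))

/-- **(GEO) at the Galois-stable level `S`, thickness one**: if `piS e = q * u`, `piS e' = q * u'`
with `u`, `u'` of norm one, images in `Ω` of inertia-fixed elements of `ℚ̄`, then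
`q ^ (aY' - aY) * υ = β ^ q` (`a_e - a_e' = -aY + aY'`). -/
theorem k1_at_level_thick_one (TA : TowerAction B hB hqM hne j hj S D hO hw)
    {f₀ : FS (M * q) q S} (hf₀ : f₀ ≠ 0)
    (h₀ : ∀ t : ↥(B.inertiaSubgroupIn ℚ),
      ∃ a ∈ (iotaSrc B hB hqM hne e j hj S D hO hw).fieldRange,
        ∃ m : (CD B hB hqM hne S D hO hw).Lh 0,
          TA.act₀ t ((CD B hB hqM hne S D hO hw).emb 0 f₀) =
            a * m ^ q * (CD B hB hqM hne S D hO hw).emb 0 f₀)
    (h₁ : ∀ t : ↥(B.inertiaSubgroupIn ℚ),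
      ∃ a ∈ (iotaTgt B hB hqM hne e j hj S D hO hw).fieldRange,
        ∃ m : (CD B hB hqM hne S D hO hw).Lh 1,
          TA.act₁ t ((CD B hB hqM hne S D hO hw).emb 1 f₀) =
            a * m ^ q * (CD B hB hqM hne S D hO hw).emb 1 f₀)
    (T T' : Finset (Place Kb (Fb (M * q))))
    (hT : ∀ Q, Q ∈ T ↔ Q ∈ tube (Final.setupFinal B hB hqM hne) e ∧ Q.ord (f₀ : Fb (M * q)) ≠ 0)
    (hT' : ∀ Q, Q ∈ T' ↔
      Q ∈ tube (Final.setupFinal B hB hqM hne) e' ∧ Q.ord (f₀ : Fb (M * q)) ≠ 0)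
    (hTS : ∀ Q ∈ T, evalAt Q (annulusLevels_modular_final B hB hqM hne e).u ∈ S)
    (hTS' : ∀ Q ∈ T', evalAt Q (annulusLevels_modular_final B hB hqM hne e').u ∈ S)
    (μ : Place Kb (Fb (M * q)) → ℤ)
    (hμ : ∀ Q, Q.ord (f₀ : Fb (M * q)) = (q : ℤ) * μ Q)
    -- thickness one
    {u u' : K₁S (M := M) (q := q) j S} {c c' : Kb}
    (hπ : piS B hB hqM hne e j S = (q : K₁S (M := M) (q := q) j S) * u)
    (hπ' : piS B hB hqM hne e' j S = (q : K₁S (M := M) (q := q) j S) * u')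
    (hu : ‖u‖ = 1) (hu' : ‖u'‖ = 1) (huc : (u : Ω) = j c) (huc' : (u' : Ω) = j c')
    (hc : ∀ t : ↥(B.inertiaSubgroupIn ℚ), (t : GQ) c = c)
    (hc' : ∀ t : ↥(B.inertiaSubgroupIn ℚ), (t : GQ) c' = c')
    {cY cY' : K₁S (M := M) (q := q) j S} {aY aY' : ℤ}
    (hY : HasLead (phiTgt B hB hqM hne e j hj S D hO hw
      ((CD B hB hqM hne S D hO hw).emb 1 f₀)) cY aY)
    (hY' : HasLead (phiTgt B hB hqM hne e' j hj S D hO hw
      ((CD B hB hqM hne S D hO hw).emb 1 f₀)) cY' aY') :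
    ∃ υ β : K₁S (M := M) (q := q) j S, (∀ t : ↥(B.inertiaSubgroupIn ℚ), TA.σS t υ = υ) ∧
      ‖υ‖ = 1 ∧
      (q : K₁S (M := M) (q := q) j S) ^ (aY' - aY) * υ = β ^ q ∧
      (∀ t : ↥(B.inertiaSubgroupIn ℚ),
        gal (M * q) (t : GQ) • (f₀ : Fb (M * q)) = (f₀ : Fb (M * q)) → TA.σS t β = β) := by
  obtain ⟨υ, β, hυ, hυn, hid, hβ⟩ := k1_at_level B hB hqM hne e e' j hj S D hO hw TA hf₀ h₀ h₁
    T T' hT hT' hTS hTS' μ hμ hY hY'
  have hq0 : (q : K₁S (M := M) (q := q) j S) ≠ 0 := natCast_ne_zero_K₁S j S hq.out.ne_zero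
  have hu0 : u ≠ 0 := fun h => by rw [h, norm_zero] at hu; exact zero_ne_one hu
  have hu'0 : u' ≠ 0 := fun h => by rw [h, norm_zero] at hu'; exact zero_ne_one hu'
  have hυ0 : υ ≠ 0 := fun h => by rw [h, norm_zero] at hυn; exact zero_ne_one hυn
  have hσu : ∀ t, TA.σS t u = u := fun t => TA.σS_eq_of_coe_eq t huc (hc t)
  have hσu' : ∀ t, TA.σS t u' = u' := fun t => TA.σS_eq_of_coe_eq t huc' (hc' t)
  refine ⟨u ^ (-aY) / (u' ^ (-aY') * υ), β, fun t => ?_, ?_, ?_, hβ⟩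
  · rw [map_div₀, map_mul, map_zpow₀, map_zpow₀, hσu, hσu', hυ]
  · rw [norm_div, norm_mul, norm_zpow, norm_zpow, hu, hu', hυn, one_zpow, one_zpow, one_mul,
      div_one]
  · rw [hπ, hπ', mul_zpow, mul_zpow] at hid
    have e1 : (q : K₁S (M := M) (q := q) j S) ^ (aY' - aY) =
        (q : K₁S (M := M) (q := q) j S) ^ (-aY) / (q : K₁S (M := M) (q := q) j S) ^ (-aY') := by
      rw [← zpow_sub₀ hq0]
      congr 1
      ring
    rw [e1]
    have h1 : u' ^ (-aY') ≠ 0 := zpow_ne_zero _ hu'0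
    have h2 : (q : K₁S (M := M) (q := q) j S) ^ (-aY') ≠ 0 := zpow_ne_zero _ hq0
    field_simp
    linear_combination hid

end Fermat.Agent.FF4.GeoAssembly
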