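import Mathlib
import Fermat.Agent.FF4.GeoAssembly.K1Level

/-!
# FF4 / GeoAssembly (N7 of the K1 typing board): a constructor for `TowerAction`

The two fields `iotaSrc_σS`, `iotaTgt_σS` (equivariance of the embeddings of the completed constants)
of the contract `TowerAction` FOLLOW from the equivariance `phiSrc_act`, `phiTgt_act` of the
expansions: `phiSrc e` is a ring homomorphism out of a field, hence injective, and
`phiSrc e (act₀ t (iotaSrc c)) = mapCoeff (σS t) (algebraMap c) = algebraMap (σS t c)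
  = phiSrc e (iotaSrc (σS t c))`.

* `iotaSrc_equivariant_of_phiSrc`, `iotaTgt_equivariant_of_phiTgt` : the two derivations;
* `TowerAction.ofPhi` : the constructor without the two `ι`-fields.
-/

set_option autoImplicit false
set_option linter.unusedSectionVars false
set_option synthInstance.maxHeartbeats 400000
set_option maxHeartbeats 4000000

noncomputable section

local instance (priority := 100000) Fermat.Agent.FF4.FastInst.instAlgFullC_TowerActionMk
    {k : Type*} [Field k] (N : ℕ) :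
    Algebra k ↥(ModularCurve.modularFunctionFieldFullC k N) := inferInstance
local instance (priority := 100000) Fermat.Agent.FF4.FastInst.instFieldFullC_TowerActionMk
    {k : Type*} [Field k] (N : ℕ) :
    Field ↥(ModularCurve.modularFunctionFieldFullC k N) := inferInstance

namespace Fermat.Agent.FF4.GeoAssembly

open AlgebraicCurve ModularCurve IsLocalRing Fermat.Agent.Red Fermat.Agent.X0
  Fermat.Agent.BR Fermat.Agent.BR.Centre Fermat.Agent.BR.S0 Fermat.Agent.BR.SS
  Fermat.Agent.BR.Refine Fermat.Agent.BR.S0.RedModular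
  Fermat.Agent.BR.S0.RedHyp Fermat.Agent.BR.S0.PointDict Fermat.Agent.BR.Inst.AnnulusInstFinal
  Fermat.Agent.BR.Inst.Levels Fermat.Agent.BR.Inst.NodeInst Fermat.Agent.BR.Inst.LocSub
  Fermat.Agent.BR.ValTwo
  Fermat.Agent.FF3 Fermat.Agent.FF3.Amice Fermat.Agent.FF3.B4 Fermat.Agent.FF3.DVCompl
  Fermat.Agent.FF3.ExpandBR Fermat.Agent.FF3.BLift Fermat.Agent.FF4.BdryFrac
  Fermat.Agent.FF4.AmiceLead Fermat.Agent.FF4.ModularLead Fermat.Agent.FF3.AmiceU
  Fermat.Agent.FF4.NodeIdentity Fermat.Agent.FF4.TubeGalois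

attribute [local instance] normedAlgebraSubfield
attribute [local instance] nontrivial_bAmice

local notation "Kb" => AlgebraicClosure ℚ
local notation "GQ" => (AlgebraicClosure ℚ ≃ₐ[ℚ] AlgebraicClosure ℚ)

variable {M q : ℕ} [NeZero M] [hq : Fact q.Prime]
variable (B : ValuationSubring Kb) (hB : B.LiesOverPrime q) (hqM : ¬ q ∣ M)
variable [IsAlgClosed (ResidueField B)]
variable (hne : Nonempty (Crossing (chartDataModular B hB hqM)))
variable (e e' : Crossing (chartDataModular B hB hqM))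
variable {Ω : Type} [NormedField Ω] [IsUltrametricDist Ω] [CompleteSpace Ω]
  (j : Kb →+* Ω) (hj : ∀ c : Kb, ‖j c‖ ≤ 1 ↔ c ∈ B) (S : Finset Kb)
variable (D : Fin 2 → Datum (FS (M * q) q S))
  (hO : ∀ v (x : FS (M * q) q S),
    x ∈ (D v).O₀ ↔ (x : Fb (M * q)) ∈ (Final.setupFinal B hB hqM hne).O v)
  (hw : ∀ v, (D v).w = unifFS (M := M) B hB S)

/-- **`ι`-equivariance on the component `0` from the equivariance of the expansion at `e`** -/
theorem iotaSrc_equivariant_of_phiSrc
    (τ : (CD B hB hqM hne S D hO hw).Lh 0 →+* (CD B hB hqM hne S D hO hw).Lh 0)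
    (σ : K₁S (M := M) (q := q) j S →+* K₁S (M := M) (q := q) j S) (hσ : ∀ c, ‖σ c‖ = ‖c‖)
    (h : ∀ x : (CD B hB hqM hne S D hO hw).Lh 0,
      phiSrc B hB hqM hne e j hj S D hO hw (τ x) =
        mapCoeff σ hσ (phiSrc B hB hqM hne e j hj S D hO hw x))
    (c : K₁S (M := M) (q := q) j S) :
    iotaSrc B hB hqM hne e j hj S D hO hw (σ c) =
      τ (iotaSrc B hB hqM hne e j hj S D hO hw c) := by
  apply (phiSrc B hB hqM hne e j hj S D hO hw).injective
  rw [h, phiSrc_iotaSrc B hB hqM hne e e j hj S D hO hw,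
    phiSrc_iotaSrc B hB hqM hne e e j hj S D hO hw, mapCoeff_algebraMap]

/-- **`ι`-equivariance on the component `1` from the equivariance of the expansion at `e`** -/
theorem iotaTgt_equivariant_of_phiTgt
    (τ : (CD B hB hqM hne S D hO hw).Lh 1 →+* (CD B hB hqM hne S D hO hw).Lh 1)
    (σ : K₁S (M := M) (q := q) j S →+* K₁S (M := M) (q := q) j S) (hσ : ∀ c, ‖σ c‖ = ‖c‖)
    (h : ∀ x : (CD B hB hqM hne S D hO hw).Lh 1,
      phiTgt B hB hqM hne e j hj S D hO hw (τ x) =
        mapCoeff σ hσ (phiTgt B hB hqM hne e j hj S D hO hw x))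
    (c : K₁S (M := M) (q := q) j S) :
    iotaTgt B hB hqM hne e j hj S D hO hw (σ c) =
      τ (iotaTgt B hB hqM hne e j hj S D hO hw c) := by
  apply (phiTgt B hB hqM hne e j hj S D hO hw).injective
  rw [h, phiTgt_iotaTgt B hB hqM hne e e j hj S D hO hw,
    phiTgt_iotaTgt B hB hqM hne e e j hj S D hO hw, mapCoeff_algebraMap]

/-- **the constructor of `TowerAction` without the two `ι`-fields** -/
def TowerAction.ofPhi
    (act₀ : ↥(B.inertiaSubgroupIn ℚ) →* RingAut ((CD B hB hqM hne S D hO hw).Lh 0))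
    (act₁ : ↥(B.inertiaSubgroupIn ℚ) →* RingAut ((CD B hB hqM hne S D hO hw).Lh 1))
    (fin₀ : (Set.range act₀).Finite) (fin₁ : (Set.range act₁).Finite)
    (act₀_emb : ∀ (t : ↥(B.inertiaSubgroupIn ℚ)) (h h' : FS (M * q) q S),
      (h' : Fb (M * q)) = gal (M * q) (t : GQ) • (h : Fb (M * q)) →
        act₀ t ((CD B hB hqM hne S D hO hw).emb 0 h) = (CD B hB hqM hne S D hO hw).emb 0 h')
    (act₁_emb : ∀ (t : ↥(B.inertiaSubgroupIn ℚ)) (h h' : FS (M * q) q S),
      (h' : Fb (M * q)) = gal (M * q) (t : GQ) • (h : Fb (M * q)) →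
        act₁ t ((CD B hB hqM hne S D hO hw).emb 1 h) = (CD B hB hqM hne S D hO hw).emb 1 h')
    (σΩ : ↥(B.inertiaSubgroupIn ℚ) → Ω →+* Ω)
    (σΩ_j : ∀ (t : ↥(B.inertiaSubgroupIn ℚ)) (c : Kb), σΩ t (j c) = j ((t : GQ) c))
    (σS : ↥(B.inertiaSubgroupIn ℚ) → K₁S (M := M) (q := q) j S →+* K₁S (M := M) (q := q) j S)
    (coe_σS : ∀ (t : ↥(B.inertiaSubgroupIn ℚ)) (c : K₁S (M := M) (q := q) j S),
      ((σS t c : K₁S (M := M) (q := q) j S) : Ω) = σΩ t (c : Ω))
    (norm_σS : ∀ (t : ↥(B.inertiaSubgroupIn ℚ)) (c : K₁S (M := M) (q := q) j S),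
      ‖σS t c‖ = ‖c‖)
    (phiSrc_act : ∀ (e : Crossing (chartDataModular B hB hqM)) (t : ↥(B.inertiaSubgroupIn ℚ))
      (x : (CD B hB hqM hne S D hO hw).Lh 0),
      phiSrc B hB hqM hne e j hj S D hO hw (act₀ t x) =
        mapCoeff (σS t) (norm_σS t) (phiSrc B hB hqM hne e j hj S D hO hw x))
    (phiTgt_act : ∀ (e : Crossing (chartDataModular B hB hqM)) (t : ↥(B.inertiaSubgroupIn ℚ))
      (x : (CD B hB hqM hne S D hO hw).Lh 1),
      phiTgt B hB hqM hne e j hj S D hO hw (act₁ t x) =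
        mapCoeff (σS t) (norm_σS t) (phiTgt B hB hqM hne e j hj S D hO hw x)) :
    TowerAction B hB hqM hne j hj S D hO hw where
  act₀ := act₀
  act₁ := act₁
  fin₀ := fin₀
  fin₁ := fin₁
  act₀_emb := act₀_emb
  act₁_emb := act₁_emb
  σΩ := σΩ
  σΩ_j := σΩ_j
  σS := σS
  coe_σS := coe_σS
  norm_σS := norm_σS
  iotaSrc_σS := fun e t c =>
    iotaSrc_equivariant_of_phiSrc B hB hqM hne e j hj S D hO hw
      ((act₀ t : RingAut ((CD B hB hqM hne S D hO hw).Lh 0)) :
        (CD B hB hqM hne S D hO hw).Lh 0 →+* (CD B hB hqM hne S D hO hw).Lh 0)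
      (σS t) (norm_σS t) (fun x => phiSrc_act e t x) c
  iotaTgt_σS := fun e t c =>
    iotaTgt_equivariant_of_phiTgt B hB hqM hne e j hj S D hO hw
      ((act₁ t : RingAut ((CD B hB hqM hne S D hO hw).Lh 1)) :
        (CD B hB hqM hne S D hO hw).Lh 1 →+* (CD B hB hqM hne S D hO hw).Lh 1)
      (σS t) (norm_σS t) (fun x => phiTgt_act e t x) c
  phiSrc_act := phiSrc_act
  phiTgt_act := phiTgt_act

end Fermat.Agent.FF4.GeoAssembly
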