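import Mathlib
import Fermat.Agent.FF4.GeoAssembly.TowerActionMk
import Fermat.Agent.FF4.GeoAssembly.SigmaS
import Fermat.Agent.FF4.InertiaLead.FracEquivModular

/-!
# FF4 / GeoAssembly (N7 of the K1 typing board): THE TERM of the contract `TowerAction`

At a level `S` stable under the whole Galois group (`hS : ∀ σ, InertiaLevels.GalStable q σ S`), for
any component data `(D, hO, hw)`, any `(Ω, j, hj)` and any family `σΩ t : Ω →+* Ω` of isometric
extensions of the inertia elements through `j`: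

* `actC v := actL … v` (helper29's `GaloisLayer`) on `(CD …).Lh v`, of finite range
  (`finite_range_actC`: it factors through the finite Galois layer), `actC_emb`;
* `sigC t := sigmaS … (σΩ t)` on `K₁S`;
* `phiSrc_actC`, `phiTgt_actC` : helper29's `b1F_sigmaL`/`b2F_sigmaL` pushed to `K₁S` through
  helper20's `phiSrc_equivariant`/`phiTgt_equivariant`;
* `towerActionOf : TowerAction B hB hqM hne j hj S D hO hw`, with `towerActionOf_σΩ : (…).σΩ = σΩ`.
-/

set_option autoImplicit false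
set_option linter.unusedSectionVars false
set_option synthInstance.maxHeartbeats 400000
set_option maxHeartbeats 4000000

noncomputable section

local instance (priority := 100000) Fermat.Agent.FF4.FastInst.instAlgFullC_TowerActionInst
    {k : Type*} [Field k] (N : ℕ) :
    Algebra k ↥(ModularCurve.modularFunctionFieldFullC k N) := inferInstance
local instance (priority := 100000) Fermat.Agent.FF4.FastInst.instFieldFullC_TowerActionInst
    {k : Type*} [Field k] (N : ℕ) :
    Field ↥(ModularCurve.modularFunctionFieldFullC k N) := inferInstance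

namespace Fermat.Agent.FF4.GeoAssembly

open AlgebraicCurve ModularCurve IsLocalRing Fermat.Agent.Red Fermat.Agent.X0
  Fermat.Agent.BR Fermat.Agent.BR.Centre Fermat.Agent.BR.S0 Fermat.Agent.BR.SS
  Fermat.Agent.BR.Refine Fermat.Agent.BR.S0.RedModular
  Fermat.Agent.BR.S0.RedHyp Fermat.Agent.BR.S0.PointDict Fermat.Agent.BR.Inst.AnnulusInstFinal
  Fermat.Agent.BR.Inst.Levels Fermat.Agent.BR.Inst.NodeInst Fermat.Agent.BR.Inst.LocSub
  Fermat.Agent.BR.ValTwo
  Fermat.Agent.FF3 Fermat.Agent.FF3.Amice Fermat.Agent.FF3.B4 Fermat.Agent.FF3.DVCompl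
  Fermat.Agent.FF3.ExpandBR Fermat.Agent.FF3.BLift Fermat.Agent.FF4.BdryFrac
  Fermat.Agent.FF4.AmiceLead Fermat.Agent.FF4.ModularLead Fermat.Agent.FF3.AmiceU
  Fermat.Agent.FF4.NodeIdentity Fermat.Agent.FF4.TubeGalois Fermat.Agent.FF4.InertiaLead
  Fermat.Agent.FF3.InertiaLevels Fermat.Agent.FF4.GeoAssembly

attribute [local instance] normedAlgebraSubfield
attribute [local instance] nontrivial_bAmice

local notation "Kb" => AlgebraicClosure ℚ
local notation "GQ" => (AlgebraicClosure ℚ ≃ₐ[ℚ] AlgebraicClosure ℚ)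

variable {M q : ℕ} [NeZero M] [hq : Fact q.Prime]
variable (B : ValuationSubring Kb) (hB : B.LiesOverPrime q) (hqM : ¬ q ∣ M)
variable [IsAlgClosed (ResidueField B)]
variable (hne : Nonempty (Crossing (chartDataModular B hB hqM)))
variable (e e' : Crossing (chartDataModular B hB hqM))
variable {Ω : Type} [NormedField Ω] [IsUltrametricDist Ω] [CompleteSpace Ω]
  (j : Kb →+* Ω) (hj : ∀ c : Kb, ‖j c‖ ≤ 1 ↔ c ∈ B) (S : Finset Kb)
  (hS : ∀ σ : GQ, InertiaLevels.GalStable q σ S)
variable (D : Fin 2 → Datum (FS (M * q) q S))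
  (hO : ∀ v (x : FS (M * q) q S),
    x ∈ (D v).O₀ ↔ (x : Fb (M * q)) ∈ (Final.setupFinal B hB hqM hne).O v)
  (hw : ∀ v, (D v).w = unifFS (M := M) B hB S)

/-- the action on the component `v` -/
def actC (v : Fin 2) : ↥(B.inertiaSubgroupIn ℚ) →* RingAut ((CD B hB hqM hne S D hO hw).Lh v) :=
  actL B hB hqM S hS hne D hO v


include hB in
theorem finite_range_actC (v : Fin 2) :
    (Set.range (actC B hB hqM hne S hS D hO hw v)).Finite := by
  have := finite_galLayer B hB S hS
  have h : Set.range (actC B hB hqM hne S hS D hO hw v) ⊆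
      Set.range (layerHom B hB hqM S hS hne D hO v) := by
    rintro _ ⟨t, rfl⟩
    exact ⟨QuotientGroup.mk t, rfl⟩
  exact (Set.finite_range _).subset h

theorem actC_emb (v : Fin 2) (t : ↥(B.inertiaSubgroupIn ℚ)) (h h' : FS (M * q) q S)
    (hh : (h' : Fb (M * q)) = gal (M * q) (t : GQ) • (h : Fb (M * q))) :
    actC B hB hqM hne S hS D hO hw v t ((CD B hB hqM hne S D hO hw).emb v h) =
      (CD B hB hqM hne S D hO hw).emb v h' := by
  refine (sigmaL_emb B hB hqM S hS hne D hO t v h).trans ?_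
  congr 1
  exact Subtype.ext hh.symm

variable (σΩ : ↥(B.inertiaSubgroupIn ℚ) → Ω →+* Ω)
  (hnorm : ∀ (t : ↥(B.inertiaSubgroupIn ℚ)) (x : Ω), ‖σΩ t x‖ = ‖x‖)
  (hσj : ∀ (t : ↥(B.inertiaSubgroupIn ℚ)) (c : Kb), σΩ t (j c) = j ((t : GQ) c))

/-- the action on the completed constants -/
def sigC (t : ↥(B.inertiaSubgroupIn ℚ)) :
    K₁S (M := M) (q := q) j S →+* K₁S (M := M) (q := q) j S :=
  sigmaS B hB hqM hne.some j (σΩ t) (hnorm t) (hσj t) t.2 (hS t)

theorem phiSrc_actC (t : ↥(B.inertiaSubgroupIn ℚ)) (x : (CD B hB hqM hne S D hO hw).Lh 0) :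
    phiSrc B hB hqM hne e j hj S D hO hw (actC B hB hqM hne S hS D hO hw 0 t x) =
      mapCoeff (sigC B hB hqM hne j S hS σΩ hnorm hσj t)
        (fun c => norm_sigmaS B hB hqM hne.some j (σΩ t) (hnorm t) (hσj t) t.2 (hS t) c)
        (phiSrc B hB hqM hne e j hj S D hO hw x) :=
  phiSrc_equivariant B hB hqM hne e j hj S D hO hw
    ((actC B hB hqM hne S hS D hO hw 0 t : RingAut ((CD B hB hqM hne S D hO hw).Lh 0)) :
      (CD B hB hqM hne S D hO hw).Lh 0 →+* (CD B hB hqM hne S D hO hw).Lh 0)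
    (modConstHom B hB hqM hne e j (σΩ t) (hnorm t) (hσj t) t.2 (hS t))
    (norm_modConstHom B hB hqM hne e j (σΩ t) (hnorm t) (hσj t) t.2 (hS t))
    (sigC B hB hqM hne j S hS σΩ hnorm hσj t)
    (fun c => norm_sigmaS B hB hqM hne.some j (σΩ t) (hnorm t) (hσj t) t.2 (hS t) c)
    (fun y => coe_sigmaS_thetaK B hB hqM hne.some j (σΩ t) (hnorm t) (hσj t) t.2 (hS t) hne e y)
    (fun y => b1F_sigmaL B hB hqM hne e j hj S hS D hO hw t (σΩ t) (hnorm t) (hσj t) y) x

theorem phiTgt_actC (t : ↥(B.inertiaSubgroupIn ℚ)) (x : (CD B hB hqM hne S D hO hw).Lh 1) :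
    phiTgt B hB hqM hne e j hj S D hO hw (actC B hB hqM hne S hS D hO hw 1 t x) =
      mapCoeff (sigC B hB hqM hne j S hS σΩ hnorm hσj t)
        (fun c => norm_sigmaS B hB hqM hne.some j (σΩ t) (hnorm t) (hσj t) t.2 (hS t) c)
        (phiTgt B hB hqM hne e j hj S D hO hw x) :=
  phiTgt_equivariant B hB hqM hne e j hj S D hO hw
    ((actC B hB hqM hne S hS D hO hw 1 t : RingAut ((CD B hB hqM hne S D hO hw).Lh 1)) :
      (CD B hB hqM hne S D hO hw).Lh 1 →+* (CD B hB hqM hne S D hO hw).Lh 1)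
    (modConstHom B hB hqM hne e j (σΩ t) (hnorm t) (hσj t) t.2 (hS t))
    (norm_modConstHom B hB hqM hne e j (σΩ t) (hnorm t) (hσj t) t.2 (hS t))
    (sigC B hB hqM hne j S hS σΩ hnorm hσj t)
    (fun c => norm_sigmaS B hB hqM hne.some j (σΩ t) (hnorm t) (hσj t) t.2 (hS t) c)
    (fun y => coe_sigmaS_thetaK B hB hqM hne.some j (σΩ t) (hnorm t) (hσj t) t.2 (hS t) hne e y)
    (fun y => b2F_sigmaL B hB hqM hne e j hj S hS D hO hw t (σΩ t) (hnorm t) (hσj t) y) x

/-- **the term** -/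
def towerActionOf : TowerAction B hB hqM hne j hj S D hO hw :=
  TowerAction.ofPhi B hB hqM hne j hj S D hO hw
    (actC B hB hqM hne S hS D hO hw 0) (actC B hB hqM hne S hS D hO hw 1)
    (finite_range_actC B hB hqM hne S hS D hO hw 0) (finite_range_actC B hB hqM hne S hS D hO hw 1)
    (actC_emb B hB hqM hne S hS D hO hw 0) (actC_emb B hB hqM hne S hS D hO hw 1)
    σΩ hσj (sigC B hB hqM hne j S hS σΩ hnorm hσj)
    (fun t c => coe_sigmaS B hB hqM hne.some j (σΩ t) (hnorm t) (hσj t) t.2 (hS t) c)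
    (fun t c => norm_sigmaS B hB hqM hne.some j (σΩ t) (hnorm t) (hσj t) t.2 (hS t) c)
    (fun e t x => phiSrc_actC B hB hqM hne e j hj S hS D hO hw σΩ hnorm hσj t x)
    (fun e t x => phiTgt_actC B hB hqM hne e j hj S hS D hO hw σΩ hnorm hσj t x)

theorem towerActionOf_σΩ : (towerActionOf B hB hqM hne j hj S hS D hO hw σΩ hnorm hσj).σΩ = σΩ := rfl

end Fermat.Agent.FF4.GeoAssembly
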