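import Mathlib
import Fermat.Agent.FF4.GeoAssembly.TowerConst
import Fermat.Agent.FF4.ThickOne

/-!
# FF4 / GeoAssembly (N7), the thickness over `K₁S`

helper5's `FF4/ThickOne` (`thick_e = q · u_e`, `‖u_e‖ = 1`, `M` without elliptic points) and
helper29's `sigma_thick`, in the dialect of helper20's common field `K₁S`:

* `exists_thick_unit_K₁S` : `∃ (u : K₁S j S) (c : Kb), piS e = q * u ∧ ‖u‖ = 1 ∧ (u : Ω) = j c ∧
  ∀ σ ∈ B.inertiaSubgroupIn ℚ, σ c = c`  (`c = thick_e / q`).
-/

set_option autoImplicit false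
set_option linter.unusedSectionVars false
set_option synthInstance.maxHeartbeats 400000
set_option maxHeartbeats 4000000

noncomputable section

local instance (priority := 100000) Fermat.Agent.FF4.FastInst.instAlgFullC_ThickS
    {k : Type*} [Field k] (N : ℕ) :
    Algebra k ↥(ModularCurve.modularFunctionFieldFullC k N) := inferInstance
local instance (priority := 100000) Fermat.Agent.FF4.FastInst.instFieldFullC_ThickS
    {k : Type*} [Field k] (N : ℕ) :
    Field ↥(ModularCurve.modularFunctionFieldFullC k N) := inferInstance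

namespace Fermat.Agent.FF4.GeoAssembly

open AlgebraicCurve ModularCurve IsLocalRing Fermat.Agent.Red Fermat.Agent.X0
  Fermat.Agent.BR Fermat.Agent.BR.Centre Fermat.Agent.BR.S0 Fermat.Agent.BR.SS
  Fermat.Agent.BR.S0.RedModular
  Fermat.Agent.BR.S0.RedHyp Fermat.Agent.BR.S0.PointDict Fermat.Agent.BR.Inst.AnnulusInstFinal
  Fermat.Agent.BR.Inst.Levels Fermat.Agent.BR.Inst.NodeInst Fermat.Agent.BR.Inst.LocSub
  Fermat.Agent.FF3 Fermat.Agent.FF3.Amice Fermat.Agent.FF3.B4 Fermat.Agent.FF3.DVCompl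
  Fermat.Agent.FF3.ExpandBR Fermat.Agent.FF3.BLift Fermat.Agent.FF4.BdryFrac
  Fermat.Agent.FF4.AmiceLead Fermat.Agent.FF4.ModularLead Fermat.Agent.FF3.AmiceU
  Fermat.Agent.FF4.ThickOne Fermat.Agent.FF4.InertiaLead

attribute [local instance] normedAlgebraSubfield

local notation "Kb" => AlgebraicClosure ℚ

variable {M q : ℕ} [NeZero M] [hq : Fact q.Prime]
variable (B : ValuationSubring Kb) (hB : B.LiesOverPrime q) (hqM : ¬ q ∣ M)
variable [IsAlgClosed (ResidueField B)]
variable (hne : Nonempty (Crossing (chartDataModular B hB hqM)))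
variable (e : Crossing (chartDataModular B hB hqM))
variable {Ω : Type} [NormedField Ω] [IsUltrametricDist Ω] [CompleteSpace Ω]
  (j : Kb →+* Ω) (hj : ∀ c : Kb, ‖j c‖ ≤ 1 ↔ c ∈ B) (S : Finset Kb)

include hj in
/-- **thickness one over `K₁S`** -/
theorem exists_thick_unit_K₁S (h2 : nuTwo M = 0) (h3 : nuThree M = 0) :
    ∃ (u : K₁S (M := M) (q := q) j S) (c : Kb),
      piS B hB hqM hne e j S = (q : K₁S (M := M) (q := q) j S) * u ∧ ‖u‖ = 1 ∧
      ((u : K₁S (M := M) (q := q) j S) : Ω) = j c ∧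
      ∀ σ : Kb ≃ₐ[ℚ] Kb, σ ∈ B.inertiaSubgroupIn ℚ → σ c = c := by
  have hq0 : (q : Kb) ≠ 0 := Nat.cast_ne_zero.mpr hq.out.ne_zero
  refine ⟨thetaK B hB hqM hne e j S (thickUnit B hB hqM hne e j S),
    (annulusLevels_modular_final B hB hqM hne e).thick / (q : Kb), ?_, ?_, ?_, fun σ hσ => ?_⟩
  · unfold piS
    rw [thickK₁_eq_mul B hB hqM hne e j S, map_mul, map_natCast]
  · rw [norm_thetaK]
    exact norm_thickUnit B hB hqM hne e j hj S h2 h3
  · rw [coe_thetaK]
    unfold thickUnit
    have h1 : ((thickK₁ (annulusLevels_modular_final B hB hqM hne e) S j /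
        ((q : ℕ) : constK₁ (annulusLevels_modular_final B hB hqM hne e) S j) :
          constK₁ (annulusLevels_modular_final B hB hqM hne e) S j) : Ω) =
        ((thickK₁ (annulusLevels_modular_final B hB hqM hne e) S j :
          constK₁ (annulusLevels_modular_final B hB hqM hne e) S j) : Ω) /
        ((((q : ℕ) : constK₁ (annulusLevels_modular_final B hB hqM hne e) S j)) : Ω) := rfl
    rw [h1, coe_natCast_K₁, coe_thickK₁, ← map_div₀]
  · rw [map_div₀, sigma_thick B hB hqM hne e hσ, map_natCast]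

end Fermat.Agent.FF4.GeoAssembly
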