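import Mathlib
import Fermat.Agent.FF4.GeoAssembly.K1Level
import Fermat.Agent.FF4.TwistRoots.Adapter
import Fermat.Agent.FF4.GeoAssembly.ThickS

/-!
# FF4 / GeoAssembly (N7 of the K1 typing board), part 3: (GEO) AT THE MODULAR TOWER

`Dt : ModularData M q B hB hqM`, `x ∈ J₀(Mq)[q]` with `alphaDown x = betaDown x = 0`,
`IsRep q x Dv f`.  `k1_modular` : there is a level `L₀` such that over every Galois-stable level
`L ⊇ L₀`, for the component data `ExpPackComp.datum` (helper21) and ANY inertia action satisfying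
the contract `TowerAction` at the level `L`:

  `piS e ^ (-aY) = piS e' ^ (-aY') * υ * β ^ q`,

`υ, β : K₁S j L`, `υ` fixed by the inertia group and of norm one, `β` fixed by the stabiliser of
`f`; `aY`, `aY'` the orders of the leading constants of `f` on the inner circles of the annuli of
`e`, `e'` (any leading data `HasLead (phiTgt e (emb 1 f)) cY aY`).

Inputs: helper14's `TwistRoots.exists_level_k1_hyp` (T1), helper5's `node_identity_modular_hasLead`
and `exists_level_of_function` (T4), helper20's `ModularLead` (the four expansions over `K₁S`),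
`k1_at_level` (T2 + T3 + T5).
-/

set_option autoImplicit false
set_option linter.unusedSectionVars false
set_option linter.style.haveILetI false
set_option synthInstance.maxHeartbeats 400000
set_option maxHeartbeats 4000000

noncomputable section

local instance (priority := 100000) Fermat.Agent.FF4.FastInst.instAlgFullC_K1Modular
    {k : Type*} [Field k] (N : ℕ) :
    Algebra k ↥(ModularCurve.modularFunctionFieldFullC k N) := inferInstance
local instance (priority := 100000) Fermat.Agent.FF4.FastInst.instFieldFullC_K1Modular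
    {k : Type*} [Field k] (N : ℕ) :
    Field ↥(ModularCurve.modularFunctionFieldFullC k N) := inferInstance

namespace Fermat.Agent.FF4.GeoAssembly

open AlgebraicCurve ModularCurve IsLocalRing Fermat.Agent.X0 Fermat.Agent.BR.Inst.Levels
  Fermat.Agent.BR.Inst.FKCover Fermat.Agent.Red Fermat.Agent.BR.SS Fermat.Agent.BR2.Filt
  Fermat.Agent.BR3.TorGlue Fermat.Agent.FF3.StepA Fermat.Agent.BR.S0 Fermat.Agent.BR.TwoVal
  Fermat.Agent.BR.S0.RedModular Fermat.Agent.BR.Final Fermat.Agent.BR2.SetupOfData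
  Fermat.Agent.Jac Fermat.Agent.BR Fermat.Agent.FF3.ExpPackComp Fermat.Agent.FF3.B4
  Fermat.Agent.FF3.LevelDesc Fermat.Agent.BR.ValTwo Fermat.Agent.BR.UnramCyclo
  Fermat.Agent.BR.UnramCycloTower Fermat.Agent.BR.Inst.AnnulusInstFinal
  Fermat.Agent.FF3 Fermat.Agent.FF3.Amice Fermat.Agent.FF3.DVCompl
  Fermat.Agent.FF3.ExpandBR Fermat.Agent.FF4.BdryFrac
  Fermat.Agent.FF4.AmiceLead Fermat.Agent.FF4.ModularLead Fermat.Agent.FF3.AmiceU
  Fermat.Agent.FF4.NodeIdentity Fermat.Agent.FF4.TubeGalois Fermat.Agent.FF4.TwistRoots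
  Fermat.Agent.BR.Refine Fermat.Agent.BR.S0.PointDict Fermat.Agent.BR.Centre

attribute [local instance] normedAlgebraSubfield
attribute [local instance] nontrivial_bAmice

local notation "GQ" => (AlgebraicClosure ℚ ≃ₐ[ℚ] AlgebraicClosure ℚ)

variable {M q : ℕ} [NeZero M] [hq : Fact q.Prime]
variable {B : ValuationSubring Kb} {hB : B.LiesOverPrime q} {hqM : ¬ q ∣ M}
variable [IsAlgClosed (ResidueField B)]
variable {Ω : Type} [NormedField Ω] [IsUltrametricDist Ω] [CompleteSpace Ω]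
  (j : Kb →+* Ω) (hj : ∀ c : Kb, ‖j c‖ ≤ 1 ↔ c ∈ B)

/-- helper21's component data at the level `L`, over `FS (M q) q L` -/
def datumL (Dt : ModularData M q B hB hqM) (L : Finset Kb) (v : Fin 2) :
    Datum (FS (M * q) q L) :=
  datum B hB hqM L v

theorem datumL_hO (Dt : ModularData M q B hB hqM) (L : Finset Kb) (v : Fin 2)
    (x : FS (M * q) q L) :
    x ∈ (datumL Dt L v).O₀ ↔
      (x : Fb (M * q)) ∈ (Final.setupFinal B hB hqM (nonempty_crossing Dt)).O v :=
  mem_datum_O₀_iff_setup B hB hqM (input Dt) rfl L v x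

theorem datumL_hw (Dt : ModularData M q B hB hqM) (L : Finset Kb) (v : Fin 2) :
    (datumL Dt L v).w = unifFS (M := M) B hB L :=
  datum_w B hB hqM L v

open scoped Classical in
/-- the part of the support of a divisor lying in the tube of the crossing `e` -/
def tubeSupp (Dt : ModularData M q B hB hqM)
    (Dv : Divisor.degZero (K := Kb) (F := Fb (M * q)))
    (e : Crossing (chartDataModular B hB hqM)) : Finset (Place Kb (Fb (M * q))) :=
  (Dv : Divisor Kb (Fb (M * q))).support.filter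
    (fun Q => Q ∈ tube (Final.setupFinal B hB hqM (nonempty_crossing Dt)) e)

open scoped Classical in
theorem mem_tubeSupp_iff (Dt : ModularData M q B hB hqM)
    {x : JZero (M * q)} {Dv : Divisor.degZero (K := Kb) (F := Fb (M * q))} {f : Fb (M * q)}
    (hR : BR2.Filt.IsRep q x Dv f) (e : Crossing (chartDataModular B hB hqM))
    (Q : Place Kb (Fb (M * q))) :
    Q ∈ tubeSupp Dt Dv e ↔
      Q ∈ tube (Final.setupFinal B hB hqM (nonempty_crossing Dt)) e ∧ Q.ord f ≠ 0 := by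
  unfold tubeSupp
  rw [Finset.mem_filter, Finsupp.mem_support_iff, ← hR.2.2 Q, and_comm]
  have hq0 : (q : ℤ) ≠ 0 := Nat.cast_ne_zero.mpr hq.out.ne_zero
  have h1 : (q • (Dv : Divisor Kb (Fb (M * q)))) Q = (q : ℤ) * (Dv : Divisor Kb (Fb (M * q))) Q := by
    rw [Finsupp.smul_apply, nsmul_eq_mul]
  rw [h1]
  constructor
  · rintro ⟨h, h'⟩
    exact ⟨h, mul_ne_zero hq0 h'⟩
  · rintro ⟨h, h'⟩
    exact ⟨h, right_ne_zero_of_mul h'⟩

theorem ord_eq_of_isRep {x : JZero (M * q)} {Dv : Divisor.degZero (K := Kb) (F := Fb (M * q))}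
    {f : Fb (M * q)} (hR : BR2.Filt.IsRep q x Dv f) (Q : Place Kb (Fb (M * q))) :
    Q.ord f = (q : ℤ) * (Dv : Divisor Kb (Fb (M * q))) Q := by
  rw [← hR.2.2 Q, Finsupp.smul_apply, nsmul_eq_mul]

/-- **(GEO) AT THE MODULAR TOWER.** -/
theorem k1_modular (Dt : ModularData M q B hB hqM) (h2 : nuTwo M = 0)
    (h3 : nuThree M = 0) {x : JZero (M * q)} (hx : q • x = 0)
    (hα : LevelTransfer.alphaDown M q x = 0) (hβ : BR2.LevelMaps.betaDown M q x = 0)
    {Dv : Divisor.degZero (K := Kb) (F := Fb (M * q))} {f : Fb (M * q)}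
    (hR : BR2.Filt.IsRep q x Dv f) (e e' : Crossing (chartDataModular B hB hqM)) :
    ∃ L₀ : Finset Kb, ∀ L : Finset Kb, L₀ ⊆ L → GalStable L →
      ∃ hf : f ∈ FS (M * q) q L,
        ∀ TA : TowerAction B hB hqM (nonempty_crossing Dt) j hj L (datumL Dt L) (datumL_hO Dt L)
          (datumL_hw Dt L),
        ∀ (cY cY' : K₁S (M := M) (q := q) j L) (aY aY' : ℤ),
          HasLead (phiTgt B hB hqM (nonempty_crossing Dt) e j hj L (datumL Dt L) (datumL_hO Dt L)
            (datumL_hw Dt L) ((CD B hB hqM (nonempty_crossing Dt) L (datumL Dt L) (datumL_hO Dt L)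
              (datumL_hw Dt L)).emb 1 ⟨f, hf⟩)) cY aY →
          HasLead (phiTgt B hB hqM (nonempty_crossing Dt) e' j hj L (datumL Dt L) (datumL_hO Dt L)
            (datumL_hw Dt L) ((CD B hB hqM (nonempty_crossing Dt) L (datumL Dt L) (datumL_hO Dt L)
              (datumL_hw Dt L)).emb 1 ⟨f, hf⟩)) cY' aY' →
          ∃ υ β : K₁S (M := M) (q := q) j L,
            (∀ t : ↥(B.inertiaSubgroupIn ℚ), TA.σS t υ = υ) ∧ ‖υ‖ = 1 ∧
            piS B hB hqM (nonempty_crossing Dt) e j L ^ (-aY) =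
              piS B hB hqM (nonempty_crossing Dt) e' j L ^ (-aY') * υ * β ^ q ∧
            (∀ t : ↥(B.inertiaSubgroupIn ℚ), gal (M * q) (t : GQ) • f = f → TA.σS t β = β) := by
  obtain ⟨L₁, hL₁⟩ := exists_level_k1_hyp.{0} Dt h2 h3 hx hα hβ hR
  obtain ⟨L₂, hL₂⟩ := exists_level_of_function (M := M) (q := q)
    (annulusLevels_modular_final B hB hqM (nonempty_crossing Dt) e).u f (tubeSupp Dt Dv e)
  obtain ⟨L₃, hL₃⟩ := exists_level_of_function (M := M) (q := q)
    (annulusLevels_modular_final B hB hqM (nonempty_crossing Dt) e').u f (tubeSupp Dt Dv e')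
  classical
  refine ⟨L₁ ∪ L₂ ∪ L₃, fun L hLL hL => ?_⟩
  have hL₁L : L₁ ⊆ L := fun a ha => hLL (Finset.mem_union_left _ (Finset.mem_union_left _ ha))
  have hL₂L : L₂ ⊆ L := fun a ha => hLL (Finset.mem_union_left _ (Finset.mem_union_right _ ha))
  have hL₃L : L₃ ⊆ L := fun a ha => hLL (Finset.mem_union_right _ ha)
  obtain ⟨hf, hT1⟩ := hL₁ L hL₁L hL
  refine ⟨hf, fun TA cY cY' aY aY' hY hY' => ?_⟩
  have hne0 : (⟨f, hf⟩ : FS (M * q) q L) ≠ 0 := fun h0 => hR.2.1 (congrArg Subtype.val h0)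
  -- (T1)
  have h₀ := (hT1 0).2 (iotaSrc B hB hqM (nonempty_crossing Dt) e j hj L (datumL Dt L)
      (datumL_hO Dt L) (datumL_hw Dt L)) TA.act₀
    (fun a ha => emb_const_mem_fieldRange_iotaSrc B hB hqM (nonempty_crossing Dt) e j hj L
      (datumL Dt L) (datumL_hO Dt L) (datumL_hw Dt L) a (const_mem_FS (M * q) q ha))
    (fun t => TA.act₀_emb t ⟨f, hf⟩ ⟨_, hL.gal_smul_mem_FKs_of_mem q (M * q) t hf⟩ rfl)
  have h₁ := (hT1 1).2 (iotaTgt B hB hqM (nonempty_crossing Dt) e j hj L (datumL Dt L)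
      (datumL_hO Dt L) (datumL_hw Dt L)) TA.act₁
    (fun a ha => emb_const_mem_fieldRange_iotaTgt B hB hqM (nonempty_crossing Dt) e j hj L
      (datumL Dt L) (datumL_hO Dt L) (datumL_hw Dt L) a (const_mem_FS (M * q) q ha))
    (fun t => TA.act₁_emb t ⟨f, hf⟩ ⟨_, hL.gal_smul_mem_FKs_of_mem q (M * q) t hf⟩ rfl)
  exact k1_at_level B hB hqM (nonempty_crossing Dt) e e' j hj L (datumL Dt L) (datumL_hO Dt L)
    (datumL_hw Dt L) TA hne0 h₀ h₁ (tubeSupp Dt Dv e) (tubeSupp Dt Dv e')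
    (mem_tubeSupp_iff Dt hR e) (mem_tubeSupp_iff Dt hR e')
    (fun Q hQ => (hL₂ L hL₂L).2 Q hQ) (fun Q hQ => (hL₃ L hL₃L).2 Q hQ)
    (fun Q => (Dv : Divisor Kb (Fb (M * q))) Q) (ord_eq_of_isRep hR) hY hY'

/-- **(GEO) AT THE MODULAR TOWER, thickness one** (`M` without elliptic points):
`q ^ (aY' - aY) * υ = β ^ q`, i.e. `q ^ (a_e - a_e') · (inertia-fixed unit) = β ^ q` with
`a_e = -aY`, `a_e' = -aY'`. -/
theorem k1_modular_thick_one (Dt : ModularData M q B hB hqM) (h2 : nuTwo M = 0)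
    (h3 : nuThree M = 0) {x : JZero (M * q)} (hx : q • x = 0)
    (hα : LevelTransfer.alphaDown M q x = 0) (hβ : BR2.LevelMaps.betaDown M q x = 0)
    {Dv : Divisor.degZero (K := Kb) (F := Fb (M * q))} {f : Fb (M * q)}
    (hR : BR2.Filt.IsRep q x Dv f) (e e' : Crossing (chartDataModular B hB hqM)) :
    ∃ L₀ : Finset Kb, ∀ L : Finset Kb, L₀ ⊆ L → GalStable L →
      ∃ hf : f ∈ FS (M * q) q L,
        ∀ TA : TowerAction B hB hqM (nonempty_crossing Dt) j hj L (datumL Dt L) (datumL_hO Dt L)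
          (datumL_hw Dt L),
        ∀ (cY cY' : K₁S (M := M) (q := q) j L) (aY aY' : ℤ),
          HasLead (phiTgt B hB hqM (nonempty_crossing Dt) e j hj L (datumL Dt L) (datumL_hO Dt L)
            (datumL_hw Dt L) ((CD B hB hqM (nonempty_crossing Dt) L (datumL Dt L) (datumL_hO Dt L)
              (datumL_hw Dt L)).emb 1 ⟨f, hf⟩)) cY aY →
          HasLead (phiTgt B hB hqM (nonempty_crossing Dt) e' j hj L (datumL Dt L) (datumL_hO Dt L)
            (datumL_hw Dt L) ((CD B hB hqM (nonempty_crossing Dt) L (datumL Dt L) (datumL_hO Dt L)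
              (datumL_hw Dt L)).emb 1 ⟨f, hf⟩)) cY' aY' →
          ∃ υ β : K₁S (M := M) (q := q) j L,
            (∀ t : ↥(B.inertiaSubgroupIn ℚ), TA.σS t υ = υ) ∧ ‖υ‖ = 1 ∧
            (q : K₁S (M := M) (q := q) j L) ^ (aY' - aY) * υ = β ^ q ∧
            (∀ t : ↥(B.inertiaSubgroupIn ℚ), gal (M * q) (t : GQ) • f = f → TA.σS t β = β) := by
  obtain ⟨L₁, hL₁⟩ := exists_level_k1_hyp.{0} Dt h2 h3 hx hα hβ hR
  obtain ⟨L₂, hL₂⟩ := exists_level_of_function (M := M) (q := q)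
    (annulusLevels_modular_final B hB hqM (nonempty_crossing Dt) e).u f (tubeSupp Dt Dv e)
  obtain ⟨L₃, hL₃⟩ := exists_level_of_function (M := M) (q := q)
    (annulusLevels_modular_final B hB hqM (nonempty_crossing Dt) e').u f (tubeSupp Dt Dv e')
  classical
  refine ⟨L₁ ∪ L₂ ∪ L₃, fun L hLL hL => ?_⟩
  have hL₁L : L₁ ⊆ L := fun a ha => hLL (Finset.mem_union_left _ (Finset.mem_union_left _ ha))
  have hL₂L : L₂ ⊆ L := fun a ha => hLL (Finset.mem_union_left _ (Finset.mem_union_right _ ha))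
  have hL₃L : L₃ ⊆ L := fun a ha => hLL (Finset.mem_union_right _ ha)
  obtain ⟨hf, hT1⟩ := hL₁ L hL₁L hL
  refine ⟨hf, fun TA cY cY' aY aY' hY hY' => ?_⟩
  have hne0 : (⟨f, hf⟩ : FS (M * q) q L) ≠ 0 := fun h0 => hR.2.1 (congrArg Subtype.val h0)
  have h₀ := (hT1 0).2 (iotaSrc B hB hqM (nonempty_crossing Dt) e j hj L (datumL Dt L)
      (datumL_hO Dt L) (datumL_hw Dt L)) TA.act₀
    (fun a ha => emb_const_mem_fieldRange_iotaSrc B hB hqM (nonempty_crossing Dt) e j hj L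
      (datumL Dt L) (datumL_hO Dt L) (datumL_hw Dt L) a (const_mem_FS (M * q) q ha))
    (fun t => TA.act₀_emb t ⟨f, hf⟩ ⟨_, hL.gal_smul_mem_FKs_of_mem q (M * q) t hf⟩ rfl)
  have h₁ := (hT1 1).2 (iotaTgt B hB hqM (nonempty_crossing Dt) e j hj L (datumL Dt L)
      (datumL_hO Dt L) (datumL_hw Dt L)) TA.act₁
    (fun a ha => emb_const_mem_fieldRange_iotaTgt B hB hqM (nonempty_crossing Dt) e j hj L
      (datumL Dt L) (datumL_hO Dt L) (datumL_hw Dt L) a (const_mem_FS (M * q) q ha))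
    (fun t => TA.act₁_emb t ⟨f, hf⟩ ⟨_, hL.gal_smul_mem_FKs_of_mem q (M * q) t hf⟩ rfl)
  obtain ⟨u, c, hπ, hu, huc, hc⟩ :=
    exists_thick_unit_K₁S B hB hqM (nonempty_crossing Dt) e j hj L h2 h3
  obtain ⟨u', c', hπ', hu', huc', hc'⟩ :=
    exists_thick_unit_K₁S B hB hqM (nonempty_crossing Dt) e' j hj L h2 h3
  exact k1_at_level_thick_one B hB hqM (nonempty_crossing Dt) e e' j hj L (datumL Dt L)
    (datumL_hO Dt L) (datumL_hw Dt L) TA hne0 h₀ h₁ (tubeSupp Dt Dv e) (tubeSupp Dt Dv e')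
    (mem_tubeSupp_iff Dt hR e) (mem_tubeSupp_iff Dt hR e')
    (fun Q hQ => (hL₂ L hL₂L).2 Q hQ) (fun Q hQ => (hL₃ L hL₃L).2 Q hQ)
    (fun Q => (Dv : Divisor Kb (Fb (M * q))) Q) (ord_eq_of_isRep hR)
    hπ hπ' hu hu' huc huc' (fun t => hc t t.2) (fun t => hc' t t.2) hY hY'

end Fermat.Agent.FF4.GeoAssembly
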