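import Mathlib
import Fermat.Agent.FF4.GeoAssembly.TowerActionInst
import Fermat.Agent.FF4.K1Out.GeoOutProof

/-!
# PROGRAMME II, block A2 (K1): **`K1Out Dt` IS A THEOREM**

`k1Out : K1Out Dt` for `Dt : ModularData M q B hB hqM` with `nuTwo M = 0`, `nuThree M = 0`:
helper27's `k1Out_of_towerAction` (representative, level merging, `k1_modular_thick_one`, slopes,
coercion to `Ω = OmegaB B hB`, helper6's approximation bridge) fed with THE TERM
`towerActionOf` of the contract `TowerAction` at every Galois-stable level, for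
`σΩ t := AbsB.sigmaOmegaI t`.
-/

set_option autoImplicit false
set_option linter.unusedSectionVars false
set_option linter.dupNamespace false
set_option synthInstance.maxHeartbeats 400000
set_option maxHeartbeats 4000000

noncomputable section

local instance (priority := 100000) Fermat.Agent.FF4.FastInst.instAlgFullC_K1Final
    {k : Type*} [Field k] (N : ℕ) :
    Algebra k ↥(ModularCurve.modularFunctionFieldFullC k N) := inferInstance
local instance (priority := 100000) Fermat.Agent.FF4.FastInst.instFieldFullC_K1Final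
    {k : Type*} [Field k] (N : ℕ) :
    Field ↥(ModularCurve.modularFunctionFieldFullC k N) := inferInstance

namespace Fermat.Agent.FF4.K1Out

open AlgebraicCurve ModularCurve IsLocalRing Fermat.Agent.X0 Fermat.Agent.BR.Inst.Levels
  Fermat.Agent.BR.Inst.FKCover Fermat.Agent.Red Fermat.Agent.BR.SS
  Fermat.Agent.BR.S0 Fermat.Agent.BR.S0.RedModular Fermat.Agent.BR.Final
  Fermat.Agent.BR2.SetupOfData Fermat.Agent.BR Fermat.Agent.FF3.B4
  Fermat.Agent.FF3.LevelDesc Fermat.Agent.FF3 Fermat.Agent.FF3.DVCompl
  Fermat.Agent.FF4.ModularLead Fermat.Agent.FF4.GeoAssembly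
  Fermat.Agent.BR.S0.PointDict Fermat.Agent.FF3.AbsB

local notation "GQ" => (AlgebraicClosure ℚ ≃ₐ[ℚ] AlgebraicClosure ℚ)

variable {M q : ℕ} [NeZero M] [hq : Fact q.Prime]
variable {B : ValuationSubring Kb} {hB : B.LiesOverPrime q} {hqM : ¬ q ∣ M}
variable [IsAlgClosed (ResidueField B)]

/-- **THE TERM of the contract `TowerAction` at the modular tower**, at every Galois-stable level,
with `σΩ := sigmaOmegaI`. -/
theorem exists_towerAction (Dt : ModularData M q B hB hqM) (L : Finset Kb) (hL : GalStable L) :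
    ∃ TA : TowerAction B hB hqM (nonempty_crossing Dt) (datumKb B hB).ι
        (fun c => hι (B := B) (hB := hB) c) L (datumL Dt L) (datumL_hO Dt L) (datumL_hw Dt L),
      ∀ (t : ↥(B.inertiaSubgroupIn ℚ)) (c : OmegaB B hB),
        TA.σΩ t c = sigmaOmegaI (hB := hB) (t : GQ) t.2 c :=
  ⟨towerActionOf B hB hqM (nonempty_crossing Dt) (datumKb B hB).ι
      (fun c => hι (B := B) (hB := hB) c) L
      (fun σ _ => hL.map_mem_KS q σ)
      (datumL Dt L) (datumL_hO Dt L) (datumL_hw Dt L)
      (fun t => sigmaOmegaI (hB := hB) (t : GQ) t.2)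
      (fun t x => norm_sigmaOmegaI t.2 x)
      (fun t c => sigmaOmegaI_ι t.2 c),
    fun _ _ => rfl⟩

/-- **(K1) IS A THEOREM**: the contract `K1Out Dt` of the skeleton. -/
theorem k1Out (Dt : ModularData M q B hB hqM) (h2 : nuTwo M = 0) (h3 : nuThree M = 0) :
    K1Out Dt :=
  k1Out_of_towerAction Dt h2 h3 (fun L hL => exists_towerAction Dt L hL)

end Fermat.Agent.FF4.K1Out
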